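import Mathlib

/-!
# Row LT, tower T7, node T7.L2.1 `SupplyC`, leaf C2.6 `TorCompC305` (helper119): the abstract core

OFF-MAIN.  Mathlib only.  No hole, nothing assumed.

* `measure_eq_of_strictFD119` : two strict fundamental domains (inside a set `S`) of a countable
  group acting by left translations have the same measure, for a left invariant measure;
* `comm_of_comm_reg119` : over a commutative ring, two `2 × 2` matrices commuting with a matrix of
  invertible discriminant commute (Cramer);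
* `gl_comm_of_comm_reg119` : the same in `GL₂`.
-/

set_option autoImplicit false

open MeasureTheory

namespace Fermat.Agent.LT.T7.H119

/-- Two strict fundamental domains `A`, `B ⊆ S` of a countable group `Γ` acting on the group `T`
by left translations (through `e : Γ →* T`) have the same measure, for every left invariant
measure. -/
theorem measure_eq_of_strictFD119 {T Γ : Type*} [Group T] [MeasurableSpace T] [MeasurableMul T]
    [Group Γ] [Countable Γ] (e : Γ →* T) (μ : Measure T) [μ.IsMulLeftInvariant]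
    (S A B : Set T) (hA : MeasurableSet A) (hB : MeasurableSet B) (hAS : A ⊆ S) (hBS : B ⊆ S)
    (hAu : ∀ t ∈ S, ∃! g : Γ, e g * t ∈ A) (hBu : ∀ t ∈ S, ∃! g : Γ, e g * t ∈ B) :
    μ A = μ B := by
  have hAdec : A = ⋃ g : Γ, (A ∩ (fun t => e g * t) ⁻¹' B) := by
    ext t
    constructor
    · intro ht
      obtain ⟨g, hg, -⟩ := hBu t (hAS ht)
      exact Set.mem_iUnion.2 ⟨g, ht, hg⟩
    · intro ht
      obtain ⟨g, hg⟩ := Set.mem_iUnion.1 ht
      exact hg.1
  have hBdec : B = ⋃ g : Γ, (B ∩ (fun t => e g⁻¹ * t) ⁻¹' A) := by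
    ext t
    constructor
    · intro ht
      obtain ⟨g, hg, -⟩ := hAu t (hBS ht)
      refine Set.mem_iUnion.2 ⟨g⁻¹, ht, ?_⟩
      show e g⁻¹⁻¹ * t ∈ A
      rwa [inv_inv]
    · intro ht
      obtain ⟨g, hg⟩ := Set.mem_iUnion.1 ht
      exact hg.1
  have hAdis : Pairwise (Function.onFun Disjoint fun g : Γ => A ∩ (fun t => e g * t) ⁻¹' B) := by
    intro g g' hgg'
    rw [Function.onFun, Set.disjoint_left]
    rintro t ⟨htA, htg⟩ ⟨-, htg'⟩
    obtain ⟨g₀, -, hu⟩ := hBu t (hAS htA)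
    exact hgg' ((hu g htg).trans (hu g' htg').symm)
  have hBdis : Pairwise (Function.onFun Disjoint fun g : Γ => B ∩ (fun t => e g⁻¹ * t) ⁻¹' A) := by
    intro g g' hgg'
    rw [Function.onFun, Set.disjoint_left]
    rintro t ⟨htB, htg⟩ ⟨-, htg'⟩
    obtain ⟨g₀, -, hu⟩ := hAu t (hBS htB)
    exact hgg' (inv_injective ((hu g⁻¹ htg).trans (hu g'⁻¹ htg').symm))
  have hAm : ∀ g : Γ, MeasurableSet (A ∩ (fun t => e g * t) ⁻¹' B) :=
    fun g => hA.inter (measurable_const_mul _ hB)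
  have hBm : ∀ g : Γ, MeasurableSet (B ∩ (fun t => e g⁻¹ * t) ⁻¹' A) :=
    fun g => hB.inter (measurable_const_mul _ hA)
  have hpiece : ∀ g : Γ, μ (B ∩ (fun t => e g⁻¹ * t) ⁻¹' A)
      = μ (A ∩ (fun t => e g * t) ⁻¹' B) := by
    intro g
    have h1 : B ∩ (fun t => e g⁻¹ * t) ⁻¹' A
        = (fun t => e g⁻¹ * t) ⁻¹' (A ∩ (fun t => e g * t) ⁻¹' B) := by
      ext t
      simp only [Set.mem_inter_iff, Set.mem_preimage, map_inv, mul_inv_cancel_left]
      exact and_comm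
    rw [h1, measure_preimage_mul]
  calc μ A = μ (⋃ g : Γ, (A ∩ (fun t => e g * t) ⁻¹' B)) := congrArg μ hAdec
    _ = ∑' g : Γ, μ (A ∩ (fun t => e g * t) ⁻¹' B) := measure_iUnion hAdis hAm
    _ = ∑' g : Γ, μ (B ∩ (fun t => e g⁻¹ * t) ⁻¹' A) := by
        congr 1
        funext g
        exact (hpiece g).symm
    _ = μ (⋃ g : Γ, (B ∩ (fun t => e g⁻¹ * t) ⁻¹' A)) := (measure_iUnion hBdis hBm).symm
    _ = μ B := (congrArg μ hBdec).symm

section Cramer

variable {R : Type*} [CommRing R]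

/-- The three Cramer relations for a matrix commuting with `g`. -/
theorem cramer_rel119 (g z : Matrix (Fin 2) (Fin 2) R) (hz : z * g = g * z) :
    (g.trace ^ 2 - 4 * g.det) * z 0 1
        = g 0 1 * ((g 0 0 - g 1 1) * (z 0 0 - z 1 1) + 2 * (g 1 0 * z 0 1 + g 0 1 * z 1 0)) ∧
      (g.trace ^ 2 - 4 * g.det) * z 1 0
        = g 1 0 * ((g 0 0 - g 1 1) * (z 0 0 - z 1 1) + 2 * (g 1 0 * z 0 1 + g 0 1 * z 1 0)) ∧
      (g.trace ^ 2 - 4 * g.det) * (z 0 0 - z 1 1)
        = (g 0 0 - g 1 1) *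
          ((g 0 0 - g 1 1) * (z 0 0 - z 1 1) + 2 * (g 1 0 * z 0 1 + g 0 1 * z 1 0)) := by
  have h00 := congrFun (congrFun hz 0) 0
  have h01 := congrFun (congrFun hz 0) 1
  have h10 := congrFun (congrFun hz 1) 0
  simp only [Matrix.mul_apply, Fin.sum_univ_two] at h00 h01 h10
  rw [Matrix.trace_fin_two, Matrix.det_fin_two]
  refine ⟨?_, ?_, ?_⟩
  · linear_combination (-(g 0 0 - g 1 1)) * h01 + 2 * g 0 1 * h00
  · linear_combination (g 0 0 - g 1 1) * h10 - 2 * g 1 0 * h00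
  · linear_combination (2 * g 1 0) * h01 - (2 * g 0 1) * h10

/-- **Cramer.**  Two matrices commuting with a `2 × 2` matrix of invertible discriminant
commute. -/
theorem comm_of_comm_reg119 (g x y : Matrix (Fin 2) (Fin 2) R)
    (hd : IsUnit (g.trace ^ 2 - 4 * g.det)) (hx : x * g = g * x) (hy : y * g = g * y) :
    x * y = y * x := by
  obtain ⟨hx1, hx2, hx3⟩ := cramer_rel119 g x hx
  obtain ⟨hy1, hy2, hy3⟩ := cramer_rel119 g y hy
  set Δ := g.trace ^ 2 - 4 * g.det with hΔ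
  set V := (g 0 0 - g 1 1) * (x 0 0 - x 1 1) + 2 * (g 1 0 * x 0 1 + g 0 1 * x 1 0) with hV
  set W := (g 0 0 - g 1 1) * (y 0 0 - y 1 1) + 2 * (g 1 0 * y 0 1 + g 0 1 * y 1 0) with hW
  have hcancel : ∀ r : R, Δ ^ 2 * r = 0 → r = 0 := by
    intro r hr
    have h2 : IsUnit (Δ ^ 2) := hd.pow 2
    exact (h2.mul_right_eq_zero).mp hr
  ext i j
  rw [← sub_eq_zero]
  apply hcancel
  fin_cases i <;> fin_cases j <;>
    simp only [Matrix.mul_apply, Fin.sum_univ_two, Fin.zero_eta, Fin.mk_one, Fin.isValue]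
  · linear_combination (Δ * y 1 0) * hx1 + (g 0 1 * V) * hy2 - (Δ * x 1 0) * hy1
      - (g 0 1 * W) * hx2
  · linear_combination (Δ * y 0 1) * hx3 + ((g 0 0 - g 1 1) * V) * hy1 - (Δ * x 0 1) * hy3
      - ((g 0 0 - g 1 1) * W) * hx1
  · linear_combination (Δ * x 1 0) * hy3 + ((g 0 0 - g 1 1) * W) * hx2 - (Δ * y 1 0) * hx3
      - ((g 0 0 - g 1 1) * V) * hy2
  · linear_combination (Δ * y 0 1) * hx2 + (g 1 0 * V) * hy1 - (Δ * x 0 1) * hy2
      - (g 1 0 * W) * hx1

/-- **Cramer in `GL₂`.** -/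
theorem gl_comm_of_comm_reg119 (g x y : GL (Fin 2) R)
    (hd : IsUnit ((g : Matrix (Fin 2) (Fin 2) R).trace ^ 2
      - 4 * (g : Matrix (Fin 2) (Fin 2) R).det))
    (hx : x * g = g * x) (hy : y * g = g * y) : x * y = y * x := by
  apply Units.ext
  have hx' : (x : Matrix (Fin 2) (Fin 2) R) * g = g * x :=
    congrArg (fun z : GL (Fin 2) R => (z : Matrix (Fin 2) (Fin 2) R)) hx
  have hy' : (y : Matrix (Fin 2) (Fin 2) R) * g = g * y :=
    congrArg (fun z : GL (Fin 2) R => (z : Matrix (Fin 2) (Fin 2) R)) hy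
  exact comm_of_comm_reg119 (g : Matrix (Fin 2) (Fin 2) R) x y hd hx' hy'

end Cramer

end Fermat.Agent.LT.T7.H119
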