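import Mathlib
import Fermat.Agent.LT.T7.H305.MatchSpec
import Fermat.Agent.LT.T1.H309.AdNorm
import Fermat.Agent.LT.T6.H166.TwCent
import Fermat.Agent.LT.T7.H119.TorCompCore

/-!
# Row LT, tower T7, node T7.L2.1 `SupplyC`, leaf C2.6 `TorCompC305` (helper119)

OFF-MAIN.  No hole, nothing assumed.  Statement = `H305.TorCompC305` of
`LT/T7/H305/MatchSpec.lean` (helper305@61757801e, sha256 541c6ac7fb6d040e), VERBATIM.

    torCompC119 : H305.TorCompC305 K K'

`vol(γ) = l · vol(δ)` for linked Haar measures on the adelic tori.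

## Proof
`T = T_𝔸(γ)` is commutative (Cramer, `tA_comm119`), `Γ = T(K)` is countable and acts on `T` by
translations, the module `n(t) = ‖det t‖_𝔸` is `Γ`-invariant (product formula, helper309).
* `E = {t : t⁻¹ ∈ Fγ}` is a strict fundamental domain of `Γ` in `S = {1/2 < n ≤ 1}`;
* `E₁ = {t : ι(t)⁻¹ ∈ Fδ}` is one in `{c₀ < n ≤ 1}`, `c₀ ^ l = 1/2` (`n(ι t) = n(t) ^ l`; the
  rational points of the twisted centraliser of `δ` are the image of `Γ`: `T6.TwCentC`, helper166);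
* `ρ` = the central element with the components `t₀` at the infinite places (all complex) and
  `1` at the finite places, `n(ρ) = c₀`; the translates `ρ ^ j E₁`, `j < l`, are strict
  fundamental domains in `{c₀ ^ (j+1) < n ≤ c₀ ^ j}`, and these sets tile `S`;
* two strict fundamental domains have the same measure (`measure_eq_of_strictFD119`), so
  `μT E = ∑_{j < l} μT (ρ ^ j E₁) = l · μT E₁ = l · μT' E'` (linked measures).
-/

set_option autoImplicit false
set_option linter.style.haveILetI false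
set_option linter.unusedSectionVars false
set_option linter.unusedVariables false

open IsDedekindDomain NumberField MeasureTheory
open Fermat.Agent.LT.H556 Fermat.Agent.LT.H556.A0 Fermat.Agent.LT.T7 Fermat.Agent.LT

noncomputable section

namespace Fermat.Agent.LT.T7.H119

attribute [local instance] Fermat.Agent.LT.T5.instMeasurableSpaceG

/-! ## Countability -/

section Basic

variable {K : Type} [Field K] [NumberField K]

theorem countable_numberField119 (K : Type) [Field K] [NumberField K] : Countable K := by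
  let b := Module.finBasis ℚ K
  exact Function.Injective.countable b.equivFun.injective

theorem countable_gl119 (K : Type) [Field K] [NumberField K] : Countable (GL (Fin 2) K) := by
  haveI := countable_numberField119 K
  haveI : Countable (Matrix (Fin 2) (Fin 2) K) :=
    (inferInstance : Countable (Fin 2 → Fin 2 → K))
  exact Function.Injective.countable (Units.val_injective (α := Matrix (Fin 2) (Fin 2) K))

/-- The module of the determinant. -/
def nrm119 (g : G K) : ℝ := T5.adNorm (Matrix.det (g : Matrix (Fin 2) (Fin 2) (Adl K)))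

theorem nrm_eq119 (g : G K) :
    nrm119 g = T1.adNorm K ((Matrix.GeneralLinearGroup.det g : (Adl K)ˣ) : Adl K) := rfl

theorem nrm_pos119 (g : G K) : 0 < nrm119 g := by
  rw [nrm_eq119]
  exact T1.H309.adNorm_pos309 K _

theorem nrm_mul119 (g h : G K) : nrm119 (g * h) = nrm119 g * nrm119 h := by
  rw [nrm_eq119, nrm_eq119, nrm_eq119, map_mul]
  exact T1.H309.adNorm_mul309 K _ _

theorem nrm_one119 : nrm119 (1 : G K) = 1 := by
  have h := nrm_mul119 (1 : G K) 1
  rw [mul_one] at h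
  have hp := nrm_pos119 (1 : G K)
  nlinarith

theorem nrm_inv119 (g : G K) : nrm119 g⁻¹ = (nrm119 g)⁻¹ := by
  have h := nrm_mul119 g g⁻¹
  rw [mul_inv_cancel, nrm_one119] at h
  exact eq_inv_of_mul_eq_one_right h.symm

theorem nrm_pow119 (g : G K) (n : ℕ) : nrm119 (g ^ n) = nrm119 g ^ n := by
  induction n with
  | zero => rw [pow_zero, pow_zero, nrm_one119]
  | succ n ih => rw [pow_succ, pow_succ, nrm_mul119, ih]

theorem nrm_ratG119 (γ : GL (Fin 2) K) : nrm119 (T5.ratG γ) = 1 := by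
  unfold nrm119
  have h1 : Matrix.det ((T5.ratG γ : G K) : Matrix (Fin 2) (Fin 2) (Adl K))
      = algebraMap K (Adl K) (Matrix.det (γ : Matrix (Fin 2) (Fin 2) K)) := by
    rw [RingHom.map_det]
    rfl
  rw [h1]
  have hne : Matrix.det (γ : Matrix (Fin 2) (Fin 2) K) ≠ 0 := by
    have := (Matrix.GeneralLinearGroup.det γ).ne_zero
    exact this
  exact T1.H309.adNorm_algebraMap309 K _ hne

theorem mem_slab_iff119 (g : G K) : g ∈ T5.slab K ↔ 1 ≤ nrm119 g ∧ nrm119 g < 2 := Iff.rfl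


end Basic

/-! ## The central ray -/

section Ray

variable {K : Type} [Field K] [NumberField K]

/-- The adele with the component `t` at every (complex) infinite place and `1` at the finite
places. -/
def rayAd119 (hK : TotCplx K) (t : ℝ) : Adl K :=
  (fun w => (InfinitePlace.Completion.ringEquivComplexOfIsComplex (hK w)).symm (t : ℂ), 1)

theorem rayAd_mul119 (hK : TotCplx K) (s t : ℝ) :
    rayAd119 hK s * rayAd119 hK t = rayAd119 hK (s * t) := by
  refine Prod.ext ?_ (mul_one 1)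
  funext w
  show (InfinitePlace.Completion.ringEquivComplexOfIsComplex (hK w)).symm (s : ℂ)
      * (InfinitePlace.Completion.ringEquivComplexOfIsComplex (hK w)).symm (t : ℂ)
    = (InfinitePlace.Completion.ringEquivComplexOfIsComplex (hK w)).symm ((s * t : ℝ) : ℂ)
  rw [← map_mul, Complex.ofReal_mul]

theorem rayAd_one119 (hK : TotCplx K) : rayAd119 hK 1 = 1 := by
  refine Prod.ext ?_ rfl
  funext w
  show (InfinitePlace.Completion.ringEquivComplexOfIsComplex (hK w)).symm ((1 : ℝ) : ℂ) = 1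
  rw [Complex.ofReal_one, map_one]

/-- The idele of `rayAd119`. -/
def rayUnit119 (hK : TotCplx K) (t : ℝ) (ht : t ≠ 0) : (Adl K)ˣ where
  val := rayAd119 hK t
  inv := rayAd119 hK t⁻¹
  val_inv := by rw [rayAd_mul119, mul_inv_cancel₀ ht, rayAd_one119]
  inv_val := by rw [rayAd_mul119, inv_mul_cancel₀ ht, rayAd_one119]

theorem norm_symm119 {w : InfinitePlace K} (hw : w.IsComplex) (z : ℂ) :
    ‖(InfinitePlace.Completion.ringEquivComplexOfIsComplex hw).symm z‖ = ‖z‖ := by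
  have h1 := (InfinitePlace.Completion.isometry_extensionEmbedding w).norm_map_of_map_zero
    (map_zero _) ((InfinitePlace.Completion.ringEquivComplexOfIsComplex hw).symm z)
  rw [← h1, ← InfinitePlace.Completion.ringEquivComplexOfIsComplex_apply hw,
    RingEquiv.apply_symm_apply]

theorem adNorm_rayUnit119 (hK : TotCplx K) (t : ℝ) (ht : 0 < t) :
    T1.adNorm K ((rayUnit119 hK t ht.ne' : (Adl K)ˣ) : Adl K)
      = (t ^ 2) ^ Fintype.card (InfinitePlace K) := by
  unfold T1.adNorm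
  have h1 : ∀ w : InfinitePlace K,
      ‖((rayUnit119 hK t ht.ne' : (Adl K)ˣ) : Adl K).1 w‖ ^ w.mult = t ^ 2 := by
    intro w
    have hm : w.mult = 2 := by
      unfold InfinitePlace.mult
      rw [if_neg (InfinitePlace.not_isReal_iff_isComplex.mpr (hK w))]
    show ‖(InfinitePlace.Completion.ringEquivComplexOfIsComplex (hK w)).symm (t : ℂ)‖ ^ w.mult
      = t ^ 2
    rw [norm_symm119, hm, Complex.norm_real, Real.norm_of_nonneg ht.le]
  have h2 : ∀ v : HeightOneSpectrum (𝓞 K),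
      ‖((rayUnit119 hK t ht.ne' : (Adl K)ˣ) : Adl K).2 v‖ = 1 := by
    intro v
    show ‖(1 : v.adicCompletion K)‖ = 1
    exact norm_one
  simp only [h1, h2, finprod_one, mul_one, Finset.prod_const, Finset.card_univ]

/-- The scalar matrix of an idele. -/
def scal119 (u : (Adl K)ˣ) : G K :=
  Units.map (Matrix.scalar (Fin 2) : Adl K →+* Matrix (Fin 2) (Fin 2) (Adl K)).toMonoidHom u

theorem scal_val119 (u : (Adl K)ˣ) :
    ((scal119 u : G K) : Matrix (Fin 2) (Fin 2) (Adl K)) = Matrix.scalar (Fin 2) (u : Adl K) :=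
  rfl

theorem scal_comm119 (u : (Adl K)ˣ) (g : G K) : scal119 u * g = g * scal119 u := by
  apply Units.ext
  show Matrix.scalar (Fin 2) (u : Adl K) * (g : Matrix (Fin 2) (Fin 2) (Adl K))
    = (g : Matrix (Fin 2) (Fin 2) (Adl K)) * Matrix.scalar (Fin 2) (u : Adl K)
  exact (Matrix.scalar_commute (u : Adl K) (fun r => Commute.all _ _) _).eq

theorem det_scal119 (u : (Adl K)ˣ) : Matrix.GeneralLinearGroup.det (scal119 u) = u * u := by
  apply Units.ext
  show Matrix.det (Matrix.scalar (Fin 2) (u : Adl K)) = (u : Adl K) * u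
  rw [Matrix.scalar_apply, Matrix.det_diagonal, Fin.prod_univ_two]

theorem nrm_scal119 (hK : TotCplx K) (t : ℝ) (ht : 0 < t) :
    nrm119 (scal119 (rayUnit119 hK t ht.ne')) = t ^ (4 * Fintype.card (InfinitePlace K)) := by
  rw [nrm_eq119, det_scal119, T1.H309.adNorm_mul309, adNorm_rayUnit119 hK t ht]
  ring


end Ray

/-! ## Real numbers: the tiling of `(1/2, 1]` -/

theorem lt_one_of_pow119 (c : ℝ) (l : ℕ) (hcl : c ^ l = 1 / 2) : c < 1 := by
  by_contra h
  have h1 : 1 ≤ c := not_lt.mp h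
  have h2 : 1 ≤ c ^ l := one_le_pow₀ h1
  rw [hcl] at h2
  norm_num at h2

theorem exists_tile119 (c : ℝ) (l : ℕ) (hl : 0 < l) (hcl : c ^ l = 1 / 2) (x : ℝ)
    (hx1 : 1 / 2 < x) (hx2 : x ≤ 1) : ∃ j < l, c ^ (j + 1) < x ∧ x ≤ c ^ j := by
  classical
  have hex : ∃ j : ℕ, c ^ (j + 1) < x := ⟨l - 1, by rw [Nat.sub_add_cancel hl, hcl]; exact hx1⟩
  have hfind := Nat.find_spec hex
  have hle : Nat.find hex ≤ l - 1 :=
    Nat.find_min' hex (by rw [Nat.sub_add_cancel hl, hcl]; exact hx1)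
  refine ⟨Nat.find hex, by omega, hfind, ?_⟩
  rcases Nat.eq_zero_or_pos (Nat.find hex) with h0 | hpos
  · rw [h0, pow_zero]; exact hx2
  · have hmin := Nat.find_min hex (m := Nat.find hex - 1) (by omega)
    rw [Nat.sub_add_cancel hpos] at hmin
    exact not_lt.mp hmin

theorem tile_unique119 (c : ℝ) (hc0 : 0 < c) (hc1 : c < 1) {j j' : ℕ} {x : ℝ}
    (h1 : c ^ (j + 1) < x) (h2 : x ≤ c ^ j) (h1' : c ^ (j' + 1) < x) (h2' : x ≤ c ^ j') :
    j = j' := by
  have key : ∀ a b : ℕ, c ^ (a + 1) < x → x ≤ c ^ b → ¬ a < b := by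
    intro a b ha hb hab
    have h3 : c ^ b ≤ c ^ (a + 1) := pow_le_pow_of_le_one hc0.le hc1.le hab
    linarith
  have hA := key j j' h1 h2'
  have hB := key j' j h1' h2
  omega

theorem slab_pow_iff119 (c : ℝ) (l : ℕ) (hc : 0 < c) (hl : 0 < l) (hcl : c ^ l = 1 / 2) (s : ℝ)
    (hs : 0 < s) : (1 ≤ (s ^ l)⁻¹ ∧ (s ^ l)⁻¹ < 2) ↔ (c < s ∧ s ≤ 1) := by
  have hsl : 0 < s ^ l := pow_pos hs l
  have hl0 : l ≠ 0 := hl.ne'
  constructor
  · rintro ⟨h1, h2⟩
    have h3 : s ^ l ≤ 1 := by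
      rw [one_le_inv₀ hsl] at h1; exact h1
    have h4 : c ^ l < s ^ l := by
      rw [hcl]
      rw [inv_lt_comm₀ hsl (by norm_num)] at h2
      linarith
    refine ⟨lt_of_pow_lt_pow_left₀ l hs.le h4, ?_⟩
    by_contra hcon
    have : 1 < s ^ l := one_lt_pow₀ (not_le.mp hcon) hl0
    linarith
  · rintro ⟨h1, h2⟩
    have h3 : s ^ l ≤ 1 := pow_le_one₀ hs.le h2
    have h4 : c ^ l < s ^ l := pow_lt_pow_left₀ h1 hc.le hl0
    rw [hcl] at h4
    refine ⟨(one_le_inv₀ hsl).mpr h3, ?_⟩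
    rw [inv_lt_comm₀ hsl (by norm_num)]
    linarith


/-! ## The tori -/

section OneField

variable {K : Type} [Field K] [NumberField K]

/-- Membership in the (untwisted) adelic centraliser. -/
theorem mem_tA_id_iff119 (γ : GL (Fin 2) K) (x : G K) :
    x ∈ H305.tA305 (T5.AdelicAut.id K) γ ↔ x * T5.ratG γ = T5.ratG γ * x := by
  show x⁻¹ * T5.ratG γ * (T5.AdelicAut.id K).onG x = T5.ratG γ ↔ _
  rw [T5.onG_id]
  constructor
  · intro h
    calc x * T5.ratG γ = x * (x⁻¹ * T5.ratG γ * x) := by rw [h]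
      _ = T5.ratG γ * x := by group
  · intro h
    calc x⁻¹ * T5.ratG γ * x = x⁻¹ * (T5.ratG γ * x) := by group
      _ = x⁻¹ * (x * T5.ratG γ) := by rw [h]
      _ = T5.ratG γ := by group

/-- Membership in the (untwisted) rational centraliser. -/
theorem mem_twStab_id_iff119 (γ g : GL (Fin 2) K) :
    g ∈ T5.twStab (T5.AdelicAut.id K) γ ↔ g * γ = γ * g := by
  show g⁻¹ * γ * (T5.AdelicAut.id K).onRat g = γ ↔ _
  rw [T5.onRat_id]
  constructor
  · intro h
    calc g * γ = g * (g⁻¹ * γ * g) := by rw [h]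
      _ = γ * g := by group
  · intro h
    calc g⁻¹ * γ * g = g⁻¹ * (γ * g) := by group
      _ = g⁻¹ * (g * γ) := by rw [h]
      _ = γ := by group

theorem ratG_mem_tA119 (γ : GL (Fin 2) K) (g : T5.twStab (T5.AdelicAut.id K) γ) :
    T5.ratG (g : GL (Fin 2) K) ∈ H305.tA305 (T5.AdelicAut.id K) γ := by
  rw [mem_tA_id_iff119, ← map_mul, ← map_mul, (mem_twStab_id_iff119 γ g).mp g.2]

/-- The discriminant of `ratG γ` is a unit if `γ` is regular. -/
theorem isUnit_disc_ratG119 (γ : GL (Fin 2) K) (hreg : T6.IsReg γ) :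
    IsUnit (((T5.ratG γ : G K) : Matrix (Fin 2) (Fin 2) (Adl K)).trace ^ 2
      - 4 * ((T5.ratG γ : G K) : Matrix (Fin 2) (Fin 2) (Adl K)).det) := by
  have h1 : ((T5.ratG γ : G K) : Matrix (Fin 2) (Fin 2) (Adl K))
      = (algebraMap K (Adl K)).mapMatrix (γ : Matrix (Fin 2) (Fin 2) K) := rfl
  have h2 : ((T5.ratG γ : G K) : Matrix (Fin 2) (Fin 2) (Adl K)).trace ^ 2
      - 4 * ((T5.ratG γ : G K) : Matrix (Fin 2) (Fin 2) (Adl K)).det
      = algebraMap K (Adl K) (T6.disc γ) := by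
    rw [h1, ← RingHom.map_det]
    unfold T6.disc
    rw [map_sub, map_mul, map_pow]
    congr 1
    · congr 1
      rw [Matrix.trace_fin_two, Matrix.trace_fin_two, map_add]
      rfl
    · congr 1
      exact (map_ofNat (algebraMap K (Adl K)) 4).symm
  rw [h2]
  exact hreg.map (algebraMap K (Adl K))

/-- The adelic centraliser of a regular element is commutative. -/
theorem tA_comm119 (γ : GL (Fin 2) K) (hreg : T6.IsReg γ) (x y : G K)
    (hx : x ∈ H305.tA305 (T5.AdelicAut.id K) γ) (hy : y ∈ H305.tA305 (T5.AdelicAut.id K) γ) :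
    x * y = y * x :=
  gl_comm_of_comm_reg119 (T5.ratG γ) x y (isUnit_disc_ratG119 γ hreg)
    ((mem_tA_id_iff119 γ x).mp hx) ((mem_tA_id_iff119 γ y).mp hy)

end OneField


section OneField
variable {K : Type} [Field K] [NumberField K]

/-- **The fundamental domain downstairs** in the form of `measure_eq_of_strictFD119`. -/
theorem exists_unique_down119 (γ : GL (Fin 2) K) (hreg : T6.IsReg γ) (Fγ : Set (G K))
    (hF : T5.IsTwDomain (T5.AdelicAut.id K) γ Fγ) (t : G K)
    (ht : t ∈ H305.tA305 (T5.AdelicAut.id K) γ) (hts : t⁻¹ ∈ T5.slab K) :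
    ∃! g : T5.twStab (T5.AdelicAut.id K) γ, (T5.ratG (g : GL (Fin 2) K) * t)⁻¹ ∈ Fγ := by
  have hinv : ∀ g : T5.twStab (T5.AdelicAut.id K) γ,
      (T5.ratG (g : GL (Fin 2) K) * t)⁻¹
        = T5.ratG ((g⁻¹ : T5.twStab (T5.AdelicAut.id K) γ) : GL (Fin 2) K) * t⁻¹ := by
    intro g
    have hc := tA_comm119 γ hreg _ _ (ratG_mem_tA119 γ g) ht
    rw [hc, mul_inv_rev, Subgroup.coe_inv, map_inv]
  obtain ⟨g₀, hg₀, huniq⟩ := hF.strict t⁻¹ hts
  refine ⟨g₀⁻¹, ?_, ?_⟩
  · show (T5.ratG ((g₀⁻¹ : T5.twStab (T5.AdelicAut.id K) γ) : GL (Fin 2) K) * t)⁻¹ ∈ Fγ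
    rw [hinv, inv_inv]
    exact hg₀
  · intro g hg
    have hg' : (T5.ratG (g : GL (Fin 2) K) * t)⁻¹ ∈ Fγ := hg
    rw [hinv] at hg'
    have := huniq g⁻¹ hg'
    rw [← this, inv_inv]

end OneField

section TwoFields

variable {K K' : Type} [Field K] [NumberField K] [Field K'] [NumberField K'] [Algebra K K']

theorem isCyclicData_of119 (D : CompData K K') (hD : IsCompData D) :
    T6.IsCyclicData K K' D.l (algebraMap K K') D.s.σ where
  pos := hD.cyc.pos
  fix_i x := (hD.cyc.fixed _).1 ((hD.base _).2 ⟨x, rfl⟩)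
  fixed y hy := (hD.base y).1 ((hD.cyc.fixed y).2 hy)
  order := hD.cyc.pow_eq
  faithful := hD.cyc.faithful

theorem normUpTo_eq119 (s : T5.AdelicAut K') (n : ℕ) (δ : GL (Fin 2) K') :
    s.normUpTo n δ = T6.twNorm s.σ n δ := by
  induction n with
  | zero => rfl
  | succ n ih =>
    show δ * s.onRat (s.normUpTo n δ) = δ * T6.glAut s.σ (T6.twN (T6.glAut s.σ) n δ)
    rw [ih]
    rfl

/-- `ι ∘ ratG = ratG ∘ (K → K')`. -/
theorem map_ratG119 {s : T5.AdelicAut K'} {l : ℕ} {ι : Adl K →+* Adl K'}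
    (hι : H305.IsAdeleBase305 s l ι) (g : GL (Fin 2) K) :
    Matrix.GeneralLinearGroup.map ι (T5.ratG g)
      = T5.ratG (Matrix.GeneralLinearGroup.map (algebraMap K K') g) := by
  apply Units.ext
  ext i j
  exact hι.rat _

/-- The module of `ι t`. -/
theorem nrm_map119 {s : T5.AdelicAut K'} {l : ℕ} {ι : Adl K →+* Adl K'}
    (hι : H305.IsAdeleBase305 s l ι) (t : G K) :
    nrm119 (Matrix.GeneralLinearGroup.map ι t) = nrm119 t ^ l := by
  have h1 : Matrix.det ((Matrix.GeneralLinearGroup.map ι t : G K') :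
      Matrix (Fin 2) (Fin 2) (Adl K')) = ι (Matrix.det (t : Matrix (Fin 2) (Fin 2) (Adl K))) := by
    rw [RingHom.map_det]
    rfl
  unfold nrm119
  rw [h1]
  exact hι.norm (Matrix.GeneralLinearGroup.det t)

theorem map_injective119 (g h : GL (Fin 2) K)
    (hgh : Matrix.GeneralLinearGroup.map (algebraMap K K') g
      = Matrix.GeneralLinearGroup.map (algebraMap K K') h) : g = h := by
  apply Units.ext
  ext i j
  have := congrArg (fun z : GL (Fin 2) K' => (z : Matrix (Fin 2) (Fin 2) K') i j) hgh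
  exact (algebraMap K K').injective this

/-- **The fundamental domain upstairs**, pulled back by `ι`, in the form of
`measure_eq_of_strictFD119`. -/
theorem exists_unique_up119 (D : CompData K K') (hD : IsCompData D) (ι : Adl K →+* Adl K')
    (hι : H305.IsAdeleBase305 D.s D.l ι) (δ : GL (Fin 2) K') (γ : GL (Fin 2) K)
    (hreg : T6.IsReg γ)
    (hN : D.s.normUpTo D.l δ = Matrix.GeneralLinearGroup.map (algebraMap K K') γ)
    (Fδ : Set (G K')) (hF : T5.IsTwDomain D.s δ Fδ) (t : G K)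
    (ht : t ∈ H305.tA305 (T5.AdelicAut.id K) γ)
    (hts : (Matrix.GeneralLinearGroup.map ι t)⁻¹ ∈ T5.slab K') :
    ∃! g : T5.twStab (T5.AdelicAut.id K) γ,
      (Matrix.GeneralLinearGroup.map ι (T5.ratG (g : GL (Fin 2) K) * t))⁻¹ ∈ Fδ := by
  have hcyc := isCyclicData_of119 D hD
  have hN' : T6.twNorm D.s.σ D.l δ = Matrix.GeneralLinearGroup.map (algebraMap K K') γ := by
    rw [← normUpTo_eq119]; exact hN
  have hTC := T6.H166.twCentC166 K K' D.l (algebraMap K K') D.s.σ hcyc δ γ hreg hN'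
  have hinv : ∀ g : T5.twStab (T5.AdelicAut.id K) γ,
      (Matrix.GeneralLinearGroup.map ι (T5.ratG (g : GL (Fin 2) K) * t))⁻¹
        = T5.ratG (Matrix.GeneralLinearGroup.map (algebraMap K K')
            ((g⁻¹ : T5.twStab (T5.AdelicAut.id K) γ) : GL (Fin 2) K))
          * (Matrix.GeneralLinearGroup.map ι t)⁻¹ := by
    intro g
    have hc := tA_comm119 γ hreg _ _ (ratG_mem_tA119 γ g) ht
    rw [hc, map_mul, mul_inv_rev, map_ratG119 hι, Subgroup.coe_inv, map_inv, map_inv]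
  obtain ⟨x₀, hx₀, huniq⟩ := hF.strict _ hts
  have hx₀mem : T6.InTwCent D.s.σ δ (x₀ : GL (Fin 2) K') := x₀.2
  obtain ⟨t₀, ht₀c, ht₀⟩ := (hTC _).mp hx₀mem
  have ht₀mem : t₀ ∈ T5.twStab (T5.AdelicAut.id K) γ := (mem_twStab_id_iff119 γ t₀).mpr ht₀c
  refine ⟨(⟨t₀, ht₀mem⟩ : T5.twStab (T5.AdelicAut.id K) γ)⁻¹, ?_, ?_⟩
  · show (Matrix.GeneralLinearGroup.map ι (T5.ratG
      (((⟨t₀, ht₀mem⟩ : T5.twStab (T5.AdelicAut.id K) γ)⁻¹ :
        T5.twStab (T5.AdelicAut.id K) γ) : GL (Fin 2) K) * t))⁻¹ ∈ Fδ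
    rw [hinv, inv_inv]
    show T5.ratG (Matrix.GeneralLinearGroup.map (algebraMap K K') t₀)
      * (Matrix.GeneralLinearGroup.map ι t)⁻¹ ∈ Fδ
    rw [← ht₀]
    exact hx₀
  · intro g hg
    have hg' : (Matrix.GeneralLinearGroup.map ι (T5.ratG (g : GL (Fin 2) K) * t))⁻¹ ∈ Fδ := hg
    rw [hinv] at hg'
    have hmem : Matrix.GeneralLinearGroup.map (algebraMap K K')
        ((g⁻¹ : T5.twStab (T5.AdelicAut.id K) γ) : GL (Fin 2) K) ∈ T5.twStab D.s δ := by
      have : T6.InTwCent D.s.σ δ (Matrix.GeneralLinearGroup.map (algebraMap K K')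
          ((g⁻¹ : T5.twStab (T5.AdelicAut.id K) γ) : GL (Fin 2) K)) :=
        (hTC _).mpr ⟨_, (mem_twStab_id_iff119 γ _).mp (g⁻¹).2, rfl⟩
      exact this
    have h1 := huniq ⟨_, hmem⟩ hg'
    have h2 : Matrix.GeneralLinearGroup.map (algebraMap K K')
        ((g⁻¹ : T5.twStab (T5.AdelicAut.id K) γ) : GL (Fin 2) K)
        = Matrix.GeneralLinearGroup.map (algebraMap K K') t₀ := by
      have := congrArg (fun z : T5.twStab D.s δ => (z : GL (Fin 2) K')) h1
      simp only at this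
      rw [this, ht₀]
    have h3 := map_injective119 _ _ h2
    apply Subtype.ext
    show (g : GL (Fin 2) K) = ((⟨t₀, ht₀mem⟩ : T5.twStab (T5.AdelicAut.id K) γ)⁻¹ :
      T5.twStab (T5.AdelicAut.id K) γ)
    rw [Subgroup.coe_inv] at h3 ⊢
    show (g : GL (Fin 2) K) = t₀⁻¹
    rw [← h3, inv_inv]

end TwoFields


/-! ## The main theorem -/

section Main

variable {K K' : Type} [Field K] [NumberField K] [Field K'] [NumberField K'] [Algebra K K']

theorem continuous_glMap119 {ι : Adl K →+* Adl K'} (hc : Continuous ι) :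
    Continuous (fun g : G K => Matrix.GeneralLinearGroup.map ι g) := by
  rw [Units.continuous_iff]
  constructor
  · show Continuous fun g : G K => ((g : Matrix (Fin 2) (Fin 2) (Adl K))).map ι
    exact Continuous.matrix_map Units.continuous_val hc
  · show Continuous fun g : G K => (((g⁻¹ : G K) : Matrix (Fin 2) (Fin 2) (Adl K))).map ι
    exact Continuous.matrix_map Units.continuous_coe_inv hc

theorem scal_pow_inv_comm119 (u : (Adl K)ˣ) (j : ℕ) (g : G K) :
    (scal119 u ^ j)⁻¹ * g = g * (scal119 u ^ j)⁻¹ := by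
  have h1 : Commute (scal119 u) g := scal_comm119 u g
  exact ((h1.pow_left j).inv_left).eq

/-- **Leaf C2.6 `TorCompC305`**, VERBATIM. -/
theorem torCompC119 : H305.TorCompC305 K K' := by
  intro D hD hcycE hTC ι hι δ γ hell hN Fδ Fγ hFδ hFγ μT μT' hμT hμT' hlink
  classical
  have hreg : T6.IsReg γ := hell.1
  have hl : 0 < D.l := hD.cyc.pos
  letI mT : MeasurableSpace (H305.tA305 (T5.AdelicAut.id K) γ) := borel _
  haveI : BorelSpace (H305.tA305 (T5.AdelicAut.id K) γ) := ⟨rfl⟩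
  haveI : BorelSpace (G K) := ⟨rfl⟩
  haveI : BorelSpace (G K') := ⟨rfl⟩
  haveI : μT.IsHaarMeasure := hμT
  haveI : Countable (T5.twStab (T5.AdelicAut.id K) γ) := by
    haveI := countable_gl119 K
    infer_instance
  -- the embedding of the rational points
  let e : T5.twStab (T5.AdelicAut.id K) γ →* H305.tA305 (T5.AdelicAut.id K) γ :=
    { toFun := fun g => ⟨T5.ratG (g : GL (Fin 2) K), ratG_mem_tA119 γ g⟩
      map_one' := Subtype.ext (map_one T5.ratG)
      map_mul' := fun a b => Subtype.ext (map_mul T5.ratG _ _) }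
  have he : ∀ (g : T5.twStab (T5.AdelicAut.id K) γ) (t : H305.tA305 (T5.AdelicAut.id K) γ),
      ((e g * t : H305.tA305 (T5.AdelicAut.id K) γ) : G K)
        = T5.ratG (g : GL (Fin 2) K) * (t : G K) := fun _ _ => rfl
  -- the central element
  have hc : 0 < Fintype.card (InfinitePlace K) := Fintype.card_pos
  set t₀ : ℝ := (2 : ℝ) ^ (-(1 : ℝ) / ((4 * Fintype.card (InfinitePlace K) * D.l : ℕ) : ℝ))
    with ht₀def
  have ht₀ : 0 < t₀ := Real.rpow_pos_of_pos (by norm_num) _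
  set ρ : G K := scal119 (rayUnit119 hTC t₀ ht₀.ne') with hρdef
  set c₀ : ℝ := t₀ ^ (4 * Fintype.card (InfinitePlace K)) with hc₀def
  have hρn : nrm119 ρ = c₀ := nrm_scal119 hTC t₀ ht₀
  have hc₀ : 0 < c₀ := pow_pos ht₀ _
  have hc₀l : c₀ ^ D.l = 1 / 2 := by
    rw [hc₀def, ← pow_mul, ← Real.rpow_natCast, ht₀def, ← Real.rpow_mul (by norm_num)]
    have hne : ((4 * Fintype.card (InfinitePlace K) * D.l : ℕ) : ℝ) ≠ 0 := by
      have : 4 * Fintype.card (InfinitePlace K) * D.l ≠ 0 := by positivity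
      exact_mod_cast this
    rw [div_mul_cancel₀ _ hne, Real.rpow_neg_one]
    norm_num
  have hc₀1 : c₀ < 1 := lt_one_of_pow119 c₀ D.l hc₀l
  have hρT : ρ ∈ H305.tA305 (T5.AdelicAut.id K) γ :=
    (mem_tA_id_iff119 γ ρ).mpr (scal_comm119 _ _)
  let ρT : H305.tA305 (T5.AdelicAut.id K) γ := ⟨ρ, hρT⟩
  have hρj : ∀ (j : ℕ) (t : H305.tA305 (T5.AdelicAut.id K) γ),
      (((ρT ^ j)⁻¹ * t : H305.tA305 (T5.AdelicAut.id K) γ) : G K) = (ρ ^ j)⁻¹ * (t : G K) :=
    fun _ _ => rfl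
  have hnρj : ∀ (j : ℕ) (t : H305.tA305 (T5.AdelicAut.id K) γ),
      nrm119 ((ρ ^ j)⁻¹ * (t : G K)) = (c₀ ^ j)⁻¹ * nrm119 (t : G K) := by
    intro j t
    rw [nrm_mul119, nrm_inv119, nrm_pow119, hρn]
  -- the sets
  let S : Set (H305.tA305 (T5.AdelicAut.id K) γ) := {t | ((t : G K))⁻¹ ∈ T5.slab K}
  let E : Set (H305.tA305 (T5.AdelicAut.id K) γ) := {t | ((t : G K))⁻¹ ∈ Fγ}
  let E₁ : Set (H305.tA305 (T5.AdelicAut.id K) γ) :=
    {t | (Matrix.GeneralLinearGroup.map ι (t : G K))⁻¹ ∈ Fδ}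
  let B : ℕ → Set (H305.tA305 (T5.AdelicAut.id K) γ) :=
    fun j => (fun t : H305.tA305 (T5.AdelicAut.id K) γ => (ρT ^ j)⁻¹ * t) ⁻¹' E₁
  -- measurability
  have hEm : MeasurableSet E := by
    have hcont : Continuous fun t : H305.tA305 (T5.AdelicAut.id K) γ => ((t : G K))⁻¹ :=
      continuous_subtype_val.inv
    exact hcont.measurable hFγ.meas
  have hE₁m : MeasurableSet E₁ := by
    have hcont : Continuous fun t : H305.tA305 (T5.AdelicAut.id K) γ =>
        (Matrix.GeneralLinearGroup.map ι (t : G K))⁻¹ :=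
      ((continuous_glMap119 hι.cont).comp continuous_subtype_val).inv
    exact hcont.measurable hFδ.meas
  have hBm : ∀ j, MeasurableSet (B j) := fun j => measurable_const_mul _ hE₁m
  -- the modules
  have hSiff : ∀ t : H305.tA305 (T5.AdelicAut.id K) γ,
      t ∈ S ↔ 1 / 2 < nrm119 (t : G K) ∧ nrm119 (t : G K) ≤ 1 := by
    intro t
    have h := slab_pow_iff119 (1 / 2) 1 (by norm_num) (by norm_num) (by norm_num)
      (nrm119 (t : G K)) (nrm_pos119 _)
    rw [pow_one] at h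
    rw [← h]
    show ((t : G K))⁻¹ ∈ T5.slab K ↔ _
    rw [mem_slab_iff119, nrm_inv119]
  have hupiff : ∀ t : G K, (Matrix.GeneralLinearGroup.map ι t)⁻¹ ∈ T5.slab K' ↔
      c₀ < nrm119 t ∧ nrm119 t ≤ 1 := by
    intro t
    rw [← slab_pow_iff119 c₀ D.l hc₀ hl hc₀l (nrm119 t) (nrm_pos119 _), mem_slab_iff119,
      nrm_inv119, nrm_map119 hι]
  have hBn : ∀ (j : ℕ) (t : H305.tA305 (T5.AdelicAut.id K) γ), t ∈ B j →
      c₀ ^ (j + 1) < nrm119 (t : G K) ∧ nrm119 (t : G K) ≤ c₀ ^ j := by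
    intro j t ht
    have h1 : (Matrix.GeneralLinearGroup.map ι ((ρ ^ j)⁻¹ * (t : G K)))⁻¹ ∈ Fδ := ht
    have h2 := (hupiff _).mp (hFδ.sub h1)
    rw [hnρj] at h2
    have hcj : 0 < c₀ ^ j := pow_pos hc₀ j
    constructor
    · have := h2.1
      rw [lt_inv_mul_iff₀ hcj] at this
      rw [pow_succ']
      linarith [mul_comm (c₀ ^ j) c₀]
    · have := h2.2
      rw [inv_mul_le_iff₀ hcj] at this
      linarith
  have hES : E ⊆ S := fun t ht => hFγ.sub ht
  have hBS : (⋃ j ∈ Finset.range D.l, B j) ⊆ S := by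
    intro t ht
    simp only [Set.mem_iUnion, Finset.mem_range] at ht
    obtain ⟨j, hj, htj⟩ := ht
    obtain ⟨h1, h2⟩ := hBn j t htj
    rw [hSiff]
    constructor
    · have h3 : c₀ ^ D.l ≤ c₀ ^ (j + 1) := pow_le_pow_of_le_one hc₀.le hc₀1.le (by omega)
      rw [hc₀l] at h3
      linarith
    · have h3 : c₀ ^ j ≤ 1 := pow_le_one₀ hc₀.le hc₀1.le
      linarith
  -- the two fundamental domains
  have hAu : ∀ t ∈ S, ∃! g : T5.twStab (T5.AdelicAut.id K) γ, e g * t ∈ E := by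
    intro t ht
    exact exists_unique_down119 γ hreg Fγ hFγ (t : G K) t.2 ht
  have hBu : ∀ t ∈ S, ∃! g : T5.twStab (T5.AdelicAut.id K) γ,
      e g * t ∈ ⋃ j ∈ Finset.range D.l, B j := by
    intro t ht
    obtain ⟨hn1, hn2⟩ := (hSiff t).mp ht
    obtain ⟨j, hj, hj1, hj2⟩ := exists_tile119 c₀ D.l hl hc₀l _ hn1 hn2
    have hcj : 0 < c₀ ^ j := pow_pos hc₀ j
    have hs : (Matrix.GeneralLinearGroup.map ι ((ρ ^ j)⁻¹ * (t : G K)))⁻¹ ∈ T5.slab K' := by
      rw [hupiff, hnρj]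
      constructor
      · rw [lt_inv_mul_iff₀ hcj]
        rw [pow_succ'] at hj1
        linarith [mul_comm (c₀ ^ j) c₀]
      · rw [inv_mul_le_iff₀ hcj]
        linarith
    have hsT : (ρ ^ j)⁻¹ * (t : G K) ∈ H305.tA305 (T5.AdelicAut.id K) γ :=
      ((ρT ^ j)⁻¹ * t).2
    obtain ⟨g, hg, hu⟩ := exists_unique_up119 D hD ι hι δ γ hreg hN Fδ hFδ _ hsT hs
    have hswap : ∀ g' : T5.twStab (T5.AdelicAut.id K) γ,
        (ρ ^ j)⁻¹ * (T5.ratG (g' : GL (Fin 2) K) * (t : G K))
          = T5.ratG (g' : GL (Fin 2) K) * ((ρ ^ j)⁻¹ * (t : G K)) := by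
      intro g'
      rw [← mul_assoc, scal_pow_inv_comm119, mul_assoc]
    refine ⟨g, ?_, ?_⟩
    · simp only [Set.mem_iUnion, Finset.mem_range]
      refine ⟨j, hj, ?_⟩
      show (Matrix.GeneralLinearGroup.map ι
        ((ρ ^ j)⁻¹ * (T5.ratG (g : GL (Fin 2) K) * (t : G K))))⁻¹ ∈ Fδ
      rw [hswap]
      exact hg
    · intro g' hg'
      simp only [Set.mem_iUnion, Finset.mem_range] at hg'
      obtain ⟨j', hj', hg'j⟩ := hg'
      obtain ⟨h1, h2⟩ := hBn j' _ hg'j
      have hnorm : nrm119 ((e g' * t : H305.tA305 (T5.AdelicAut.id K) γ) : G K)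
          = nrm119 (t : G K) := by
        rw [he, nrm_mul119, nrm_ratG119, one_mul]
      rw [hnorm] at h1 h2
      have hjj : j' = j := tile_unique119 c₀ hc₀ hc₀1 h1 h2 hj1 hj2
      subst hjj
      apply hu
      have h3 : (Matrix.GeneralLinearGroup.map ι
        ((ρ ^ j')⁻¹ * (T5.ratG (g' : GL (Fin 2) K) * (t : G K))))⁻¹ ∈ Fδ := hg'j
      rw [hswap] at h3
      exact h3
  have hmain : μT E = μT (⋃ j ∈ Finset.range D.l, B j) :=
    measure_eq_of_strictFD119 e μT S E _ hEm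
      (Finset.measurableSet_biUnion _ fun j _ => hBm j) hES hBS hAu hBu
  -- the sum over the translates
  have hdisj : ((Finset.range D.l : Finset ℕ) : Set ℕ).PairwiseDisjoint B := by
    intro j _ j' _ hjj'
    show Disjoint (B j) (B j')
    rw [Set.disjoint_left]
    intro t htj htj'
    obtain ⟨h1, h2⟩ := hBn j t htj
    obtain ⟨h1', h2'⟩ := hBn j' t htj'
    exact hjj' (tile_unique119 c₀ hc₀ hc₀1 h1 h2 h1' h2')
  have hsum : μT (⋃ j ∈ Finset.range D.l, B j) = ∑ j ∈ Finset.range D.l, μT (B j) :=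
    measure_biUnion_finset hdisj fun j _ => hBm j
  have hBj : ∀ j, μT (B j) = μT E₁ := fun j => measure_preimage_mul μT _ _
  -- the linked measures
  have hlinkE : μT' {t : H305.tA305 D.s δ | ((t : G K'))⁻¹ ∈ Fδ} = μT E₁ :=
    hlink (Inv.inv ⁻¹' Fδ) (continuous_inv.measurable hFδ.meas)
  show μT E = (D.l : ENNReal) * μT' {t : H305.tA305 D.s δ | ((t : G K'))⁻¹ ∈ Fδ}
  rw [hmain, hsum, Finset.sum_congr rfl (fun j _ => hBj j), Finset.sum_const, Finset.card_range,
    nsmul_eq_mul, hlinkE]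

end Main

end Fermat.Agent.LT.T7.H119

end
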